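import Fermat.Agent.JMod.H1Def

/-!
# The group structure on `H1 X`, functoriality
-/

set_option autoImplicit false

noncomputable section

universe u

open CategoryTheory AlgebraicGeometry TopologicalSpace Opposite

namespace Fermat.Agent.JMod

variable {X Y Z : Scheme.{u}}

namespace LC

variable {c c' d d' : LC X}

theorem Rel.of_gr (V : X → X.Opens) (hV : ∀ x, x ∈ V x) (h1 : ∀ x, V x ≤ c.U x)
    (h2 : ∀ x, V x ≤ c'.U x) (h : ∀ (x y : X) (W : X.Opens) (hx : W ≤ V x) (hy : W ≤ V y),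
      c.gr x y (hx.trans (h1 x)) (hy.trans (h1 y)) =
        c'.gr x y (hx.trans (h2 x)) (hy.trans (h2 y))) : c.Rel c' :=
  ⟨V, hV, h1, h2, fun _ => 1, fun x y W hx hy => by 
    rw [map_one, map_one, mul_one, one_mul, h x y W hx hy]⟩

theorem Rel.mul (h : c.Rel d) (h' : c'.Rel d') : (c.mul c').Rel (d.mul d') := by
  obtain ⟨V, hV, h1, h2, h, hh⟩ := h
  obtain ⟨V', hV', h1', h2', h', hh'⟩ := h'
  refine ⟨fun x => V x ⊓ V' x, fun x => ⟨hV x, hV' x⟩, fun x => inf_le_inf (h1 x) (h1' x),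
    fun x => inf_le_inf (h2 x) (h2' x),
    fun x => ures inf_le_left (h x) * ures inf_le_right (h' x), fun x y W hx hy => ?_⟩
  have e1 := hh x y W (hx.trans inf_le_left) (hy.trans inf_le_left)
  have e2 := hh' x y W (hx.trans inf_le_right) (hy.trans inf_le_right)
  rw [mul_gr, mul_gr, map_mul, map_mul, ures_ures, ures_ures, ures_ures, ures_ures,
    mul_mul_mul_comm, e1, e2, mul_mul_mul_comm]

theorem Rel.inv (h : c.Rel d) : (c.inv).Rel (d.inv) := by
  obtain ⟨V, hV, h1, h2, h, hh⟩ := h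
  refine ⟨V, hV, h1, h2, fun x => (h x)⁻¹, fun x y W hx hy => ?_⟩
  have e1 := congrArg (·⁻¹) (hh x y W hx hy)
  simp only [mul_inv] at e1
  rw [inv_gr, inv_gr, map_inv, map_inv]
  exact e1

theorem Rel.pb (f : X ⟶ Y) {c d : LC Y} (h : c.Rel d) : (c.pb f).Rel (d.pb f) := by
  obtain ⟨V, hV, h1, h2, h, hh⟩ := h
  refine ⟨fun x => f ⁻¹ᵁ (V (f x)), fun x => hV (f x),
    fun x => ((Opens.map f.base).map (homOfLE (h1 (f x)))).le,
    fun x => ((Opens.map f.base).map (homOfLE (h2 (f x)))).le,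
    fun x => upb f (U := V (f x)) le_rfl (h (f x)), fun x y W hx hy => ?_⟩
  have e := congrArg (upb f (U := V (f x) ⊓ V (f y)) (V := W) (le_inf hx hy))
    (hh (f x) (f y) _ inf_le_left inf_le_right)
  rw [map_mul, map_mul, LC.gr, LC.gr, upb_ures, upb_ures, upb_ures, upb_ures] at e
  rw [pb_gr, pb_gr, ures_upb, ures_upb]
  exact e

end LC

open LC

instance : Mul (H1 X) := ⟨Quotient.map₂ LC.mul fun _ _ h _ _ h' => Rel.mul h h'⟩
instance : One (H1 X) := ⟨H1.mk (LC.one X)⟩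
instance : Inv (H1 X) := ⟨Quotient.map LC.inv fun _ _ h => Rel.inv h⟩

theorem H1.mk_mul (c c' : LC X) : H1.mk (c.mul c') = H1.mk c * H1.mk c' := rfl

theorem H1.mk_inv (c : LC X) : H1.mk c.inv = (H1.mk c)⁻¹ := rfl

theorem H1.mk_one : H1.mk (LC.one X) = 1 := rfl

instance : CommGroup (H1 X) where
  mul_assoc a b c := by
    obtain ⟨a, rfl⟩ := H1.exists_mk a
    obtain ⟨b, rfl⟩ := H1.exists_mk b
    obtain ⟨c, rfl⟩ := H1.exists_mk c
    rw [← H1.mk_mul, ← H1.mk_mul, ← H1.mk_mul, ← H1.mk_mul, H1.mk_eq_iff]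
    refine Rel.of_gr (fun x => a.U x ⊓ b.U x ⊓ c.U x) (fun x => ⟨⟨a.mem x, b.mem x⟩, c.mem x⟩)
      (fun x => le_rfl) (fun x => le_inf (inf_le_left.trans inf_le_left)
        (le_inf (inf_le_left.trans inf_le_right) inf_le_right)) fun x y W hx hy => ?_
    rw [mul_gr, mul_gr, mul_gr, mul_gr, mul_assoc]
  one_mul a := by
    obtain ⟨a, rfl⟩ := H1.exists_mk a
    rw [← H1.mk_one, ← H1.mk_mul, H1.mk_eq_iff]
    refine Rel.of_gr (fun x => a.U x) (fun x => a.mem x)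
      (fun x => le_inf le_top le_rfl) (fun x => le_rfl) fun x y W hx hy => ?_
    rw [mul_gr, one_gr, one_mul]
  mul_one a := by
    obtain ⟨a, rfl⟩ := H1.exists_mk a
    rw [← H1.mk_one, ← H1.mk_mul, H1.mk_eq_iff]
    refine Rel.of_gr (fun x => a.U x) (fun x => a.mem x)
      (fun x => le_inf le_rfl le_top) (fun x => le_rfl) fun x y W hx hy => ?_
    rw [mul_gr, one_gr, mul_one]
  inv_mul_cancel a := by
    obtain ⟨a, rfl⟩ := H1.exists_mk a
    rw [← H1.mk_one, ← H1.mk_inv, ← H1.mk_mul, H1.mk_eq_iff]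
    refine Rel.of_gr (fun x => a.U x) (fun x => a.mem x)
      (fun x => le_inf le_rfl le_rfl) (fun x => le_top) fun x y W hx hy => ?_
    rw [mul_gr, one_gr, inv_gr, inv_mul_cancel]
  mul_comm a b := by
    obtain ⟨a, rfl⟩ := H1.exists_mk a
    obtain ⟨b, rfl⟩ := H1.exists_mk b
    rw [← H1.mk_mul, ← H1.mk_mul, H1.mk_eq_iff]
    refine Rel.of_gr (fun x => a.U x ⊓ b.U x) (fun x => ⟨a.mem x, b.mem x⟩)
      (fun x => le_rfl) (fun x => le_inf inf_le_right inf_le_left) fun x y W hx hy => ?_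
    rw [mul_gr, mul_gr, mul_comm]

/-- the class of a cocycle is trivial iff it is a coboundary -/
theorem H1.mk_eq_one_iff (c : LC X) : H1.mk c = 1 ↔
    ∃ (V : X → X.Opens) (_ : ∀ x, x ∈ V x) (h1 : ∀ x, V x ≤ c.U x) (h : ∀ x, Γ(X, V x)ˣ),
      ∀ (x y : X) (W : X.Opens) (hx : W ≤ V x) (hy : W ≤ V y),
        c.gr x y (hx.trans (h1 x)) (hy.trans (h1 y)) * ures hy (h y) = ures hx (h x) := by
  rw [← H1.mk_one, H1.mk_eq_iff]
  constructor
  · rintro ⟨V, hV, h1, h2, h, hh⟩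
    refine ⟨V, hV, h1, h, fun x y W hx hy => ?_⟩
    rw [hh x y W hx hy, one_gr, mul_one]
  · rintro ⟨V, hV, h1, h, hh⟩
    refine ⟨V, hV, h1, fun _ => le_top, h, fun x y W hx hy => ?_⟩
    rw [hh x y W hx hy, one_gr, mul_one]

/-- pull-back of classes -/
def H1.map (f : X ⟶ Y) : H1 Y →* H1 X where
  toFun := Quotient.map (LC.pb f) fun _ _ h => Rel.pb f h
  map_one' := by
    show H1.mk ((LC.one Y).pb f) = H1.mk (LC.one X)
    rw [H1.mk_eq_iff]
    refine Rel.of_gr (fun x => ⊤) (fun x => trivial) (fun x => le_rfl)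
      (fun x => le_rfl) fun x y W hx hy => ?_
    rw [one_gr, pb_gr]
    exact map_one _
  map_mul' a b := by
    obtain ⟨a, rfl⟩ := H1.exists_mk a
    obtain ⟨b, rfl⟩ := H1.exists_mk b
    show H1.mk ((a.mul b).pb f) = H1.mk ((a.pb f).mul (b.pb f))
    rw [H1.mk_eq_iff]
    refine Rel.of_gr (fun x => f ⁻¹ᵁ (a.U (f x)) ⊓ f ⁻¹ᵁ (b.U (f x)))
      (fun x => ⟨a.mem _, b.mem _⟩) (fun x => le_rfl) (fun x => le_rfl) fun x y W hx hy => ?_
    rw [mul_gr, pb_gr, pb_gr, pb_gr]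
    have e : upb f (U := (a.mul b).U (f x) ⊓ (a.mul b).U (f y)) (V := W) (le_inf hx hy)
      ((a.mul b).g (f x) (f y)) = _ := map_mul _ _ _
    refine e.trans ?_
    exact congrArg₂ (· * ·) (upb_ures f _ _ _) (upb_ures f _ _ _)

theorem H1.map_mk (f : X ⟶ Y) (c : LC Y) : H1.map f (H1.mk c) = H1.mk (c.pb f) := rfl

theorem H1.map_id (a : H1 X) : H1.map (𝟙 X) a = a := by
  obtain ⟨a, rfl⟩ := H1.exists_mk a
  rw [H1.map_mk, H1.mk_eq_iff]
  refine Rel.of_gr (fun x => a.U x) (fun x => a.mem x) (fun x => le_rfl)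
      (fun x => le_rfl) fun x y W hx hy => ?_
  rw [pb_gr]
  exact upb_id _ _

theorem H1.map_comp (f : X ⟶ Y) (g : Y ⟶ Z) (a : H1 Z) :
    H1.map (f ≫ g) a = H1.map f (H1.map g a) := by
  obtain ⟨a, rfl⟩ := H1.exists_mk a
  rw [H1.map_mk, H1.map_mk, H1.map_mk, H1.mk_eq_iff]
  refine Rel.of_gr (fun x => f ⁻¹ᵁ (g ⁻¹ᵁ (a.U (g (f x))))) (fun x => a.mem _) (fun x => le_rfl)
      (fun x => le_rfl) fun x y W hx hy => ?_
  rw [pb_gr, pb_gr]
  exact (upb_upb f g _ _ _).symm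

theorem H1.map_congr {f g : X ⟶ Y} (h : f = g) (a : H1 Y) : H1.map f a = H1.map g a := by
  rw [h]

end Fermat.Agent.JMod
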