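import Fermat.Agent.JMod.Basic

/-!
# Cech cocycles of units, indexed by the points of a scheme, and the group `H1 X`
-/

set_option autoImplicit false

noncomputable section

universe u

open CategoryTheory AlgebraicGeometry TopologicalSpace Opposite

namespace Fermat.Agent.JMod

variable {X Y Z : Scheme.{u}}

section units

/-- restriction of units -/
def ures {U V : X.Opens} (h : V ≤ U) : Γ(X, U)ˣ →* Γ(X, V)ˣ := Units.map (ores h).toMonoidHom

@[simp]
theorem coe_ures {U V : X.Opens} (h : V ≤ U) (a : Γ(X, U)ˣ) :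
    ((ures h a : Γ(X, V)ˣ) : Γ(X, V)) = ores h (a : Γ(X, U)) := rfl

theorem ures_ures {U V W : X.Opens} (h : V ≤ U) (h' : W ≤ V) (a : Γ(X, U)ˣ) :
    ures h' (ures h a) = ures (h'.trans h) a := Units.ext (ores_ores h h' _)

theorem ures_self {U : X.Opens} (h : U ≤ U) (a : Γ(X, U)ˣ) : ures h a = a :=
  Units.ext (ores_self h _)

/-- pull-back of functions -/
def opb (f : X ⟶ Y) {U : Y.Opens} {V : X.Opens} (e : V ≤ f ⁻¹ᵁ U) : Γ(Y, U) →+* Γ(X, V) :=
  (f.appLE U V e).hom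

/-- pull-back of units -/
def upb (f : X ⟶ Y) {U : Y.Opens} {V : X.Opens} (e : V ≤ f ⁻¹ᵁ U) : Γ(Y, U)ˣ →* Γ(X, V)ˣ :=
  Units.map (opb f e).toMonoidHom

@[simp]
theorem coe_upb (f : X ⟶ Y) {U : Y.Opens} {V : X.Opens} (e : V ≤ f ⁻¹ᵁ U) (a : Γ(Y, U)ˣ) :
    ((upb f e a : Γ(X, V)ˣ) : Γ(X, V)) = opb f e (a : Γ(Y, U)) := rfl

theorem opb_ores (f : X ⟶ Y) {U U' : Y.Opens} {V : X.Opens} (h : U' ≤ U) (e : V ≤ f ⁻¹ᵁ U')
    (a : Γ(Y, U)) : opb f e (ores h a) = opb f (e.trans ((Opens.map f.base).map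
      (homOfLE h)).le) a := by
  have := Scheme.Hom.map_appLE f e (homOfLE h).op
  exact congrArg (fun φ : Γ(Y, U) ⟶ Γ(X, V) => φ.hom a) this

theorem ores_opb (f : X ⟶ Y) {U : Y.Opens} {V V' : X.Opens} (e : V ≤ f ⁻¹ᵁ U) (h : V' ≤ V)
    (a : Γ(Y, U)) : ores h (opb f e a) = opb f (h.trans e) a := by
  have := Scheme.Hom.appLE_map f e (homOfLE h).op
  exact congrArg (fun φ : Γ(Y, U) ⟶ Γ(X, V') => φ.hom a) this

theorem opb_opb (f : X ⟶ Y) (g : Y ⟶ Z) {U : Z.Opens} {V : Y.Opens} {W : X.Opens}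
    (e : V ≤ g ⁻¹ᵁ U) (e' : W ≤ f ⁻¹ᵁ V) (a : Γ(Z, U)) :
    opb f e' (opb g e a) = opb (f ≫ g) (U := U) (V := W)
      (e'.trans ((Opens.map f.base).map (homOfLE e)).le) a := by
  have := Scheme.Hom.appLE_comp_appLE f g U V W e e'
  exact congrArg (fun φ : Γ(Z, U) ⟶ Γ(X, W) => φ.hom a) this

theorem opb_id {U V : X.Opens} (e : V ≤ (𝟙 X : X ⟶ X) ⁻¹ᵁ U) (a : Γ(X, U)) :
    opb (𝟙 X) e a = ores (U := U) (V := V) e a := by
  have : (𝟙 X : X ⟶ X).appLE U V e = X.presheaf.map (homOfLE (X := X.Opens) (x := V)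
      (y := U) e).op := by
    rw [Scheme.Hom.appLE, Scheme.Hom.id_app]
    exact Category.id_comp (X := Γ(X, U)) _
  exact congrArg (fun φ : Γ(X, U) ⟶ Γ(X, V) => φ.hom a) this

theorem upb_ures (f : X ⟶ Y) {U U' : Y.Opens} {V : X.Opens} (h : U' ≤ U) (e : V ≤ f ⁻¹ᵁ U')
    (a : Γ(Y, U)ˣ) : upb f e (ures h a) = upb f (e.trans ((Opens.map f.base).map
      (homOfLE h)).le) a := Units.ext (opb_ores f h e _)

theorem ures_upb (f : X ⟶ Y) {U : Y.Opens} {V V' : X.Opens} (e : V ≤ f ⁻¹ᵁ U) (h : V' ≤ V)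
    (a : Γ(Y, U)ˣ) : ures h (upb f e a) = upb f (h.trans e) a := Units.ext (ores_opb f e h _)

theorem upb_upb (f : X ⟶ Y) (g : Y ⟶ Z) {U : Z.Opens} {V : Y.Opens} {W : X.Opens}
    (e : V ≤ g ⁻¹ᵁ U) (e' : W ≤ f ⁻¹ᵁ V) (a : Γ(Z, U)ˣ) :
    upb f e' (upb g e a) = upb (f ≫ g) (U := U) (V := W)
      (e'.trans ((Opens.map f.base).map (homOfLE e)).le) a := Units.ext (opb_opb f g e e' _)

theorem upb_id {U V : X.Opens} (e : V ≤ (𝟙 X : X ⟶ X) ⁻¹ᵁ U) (a : Γ(X, U)ˣ) :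
    upb (𝟙 X) e a = ures (U := U) (V := V) e a := Units.ext (opb_id e _)

end units

/-- cocycles of units, indexed by points -/
structure LC (X : Scheme.{u}) where
  /-- the cover -/
  U : X → X.Opens
  mem : ∀ x, x ∈ U x
  /-- the transition functions: `s y = g x y • s x` on `U x ⊓ U y` -/
  g : ∀ x y, Γ(X, U x ⊓ U y)ˣ
  cocycle : ∀ (x y z : X) (W : X.Opens) (hx : W ≤ U x) (hy : W ≤ U y) (hz : W ≤ U z),
    ures (le_inf hx hy) (g x y) * ures (le_inf hy hz) (g y z) = ures (le_inf hx hz) (g x z)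

namespace LC

/-- the restriction of the transition function to a smaller open subset -/
def gr (c : LC X) (x y : X) {W : X.Opens} (hx : W ≤ c.U x) (hy : W ≤ c.U y) : Γ(X, W)ˣ :=
  ures (le_inf hx hy) (c.g x y)

variable (c c' c'' : LC X)

theorem gr_mul (x y z : X) {W : X.Opens} (hx : W ≤ c.U x) (hy : W ≤ c.U y) (hz : W ≤ c.U z) :
    c.gr x y hx hy * c.gr y z hy hz = c.gr x z hx hz := c.cocycle x y z W hx hy hz

@[simp]
theorem gr_self (x : X) {W : X.Opens} (hx hx' : W ≤ c.U x) : c.gr x x hx hx' = 1 := by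
  have := c.gr_mul x x x hx hx hx
  exact mul_eq_left.mp this

theorem ures_gr (x y : X) {W W' : X.Opens} (hx : W ≤ c.U x) (hy : W ≤ c.U y) (h : W' ≤ W) :
    ures h (c.gr x y hx hy) = c.gr x y (h.trans hx) (h.trans hy) := ures_ures _ _ _

theorem gr_inv (x y : X) {W : X.Opens} (hx : W ≤ c.U x) (hy : W ≤ c.U y) :
    (c.gr x y hx hy)⁻¹ = c.gr y x hy hx := by
  rw [inv_eq_iff_mul_eq_one, gr_mul, gr_self]

/-- cohomologous cocycles -/
def Rel (c c' : LC X) : Prop :=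
  ∃ (V : X → X.Opens) (_ : ∀ x, x ∈ V x) (h1 : ∀ x, V x ≤ c.U x) (h2 : ∀ x, V x ≤ c'.U x)
    (h : ∀ x, Γ(X, V x)ˣ), ∀ (x y : X) (W : X.Opens) (hx : W ≤ V x) (hy : W ≤ V y),
      c.gr x y (hx.trans (h1 x)) (hy.trans (h1 y)) * ures hy (h y) =
        ures hx (h x) * c'.gr x y (hx.trans (h2 x)) (hy.trans (h2 y))

theorem Rel.refl : c.Rel c :=
  ⟨c.U, c.mem, fun _ => le_rfl, fun _ => le_rfl, fun _ => 1, fun x y W hx hy => by simp⟩

variable {c c' c''}

theorem Rel.symm (h : c.Rel c') : c'.Rel c := by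
  obtain ⟨V, hV, h1, h2, h, hh⟩ := h
  refine ⟨V, hV, h2, h1, fun x => (h x)⁻¹, fun x y W hx hy => ?_⟩
  have := hh x y W hx hy
  rw [map_inv, map_inv, mul_inv_eq_iff_eq_mul, mul_assoc, this, inv_mul_cancel_left]

theorem Rel.trans (h : c.Rel c') (h' : c'.Rel c'') : c.Rel c'' := by
  obtain ⟨V, hV, h1, h2, h, hh⟩ := h
  obtain ⟨V', hV', h1', h2', h', hh'⟩ := h'
  refine ⟨fun x => V x ⊓ V' x, fun x => ⟨hV x, hV' x⟩, fun x => inf_le_left.trans (h1 x),
    fun x => inf_le_right.trans (h2' x),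
    fun x => ures inf_le_left (h x) * ures inf_le_right (h' x), fun x y W hx hy => ?_⟩
  have e1 := hh x y W (hx.trans inf_le_left) (hy.trans inf_le_left)
  have e2 := hh' x y W (hx.trans inf_le_right) (hy.trans inf_le_right)
  rw [map_mul, map_mul, ures_ures, ures_ures, ures_ures, ures_ures, ← mul_assoc, e1, mul_assoc,
    e2, mul_assoc]

instance setoid (X : Scheme.{u}) : Setoid (LC X) where
  r := Rel
  iseqv := ⟨Rel.refl, Rel.symm, Rel.trans⟩

/-- the product of two cocycles -/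
def mul (c c' : LC X) : LC X where
  U x := c.U x ⊓ c'.U x
  mem x := ⟨c.mem x, c'.mem x⟩
  g x y := c.gr x y (inf_le_left.trans inf_le_left) (inf_le_right.trans inf_le_left) *
    c'.gr x y (inf_le_left.trans inf_le_right) (inf_le_right.trans inf_le_right)
  cocycle x y z W hx hy hz := by
    simp only [map_mul, ures_gr]
    rw [mul_mul_mul_comm, gr_mul, gr_mul]

/-- the inverse of a cocycle -/
def inv (c : LC X) : LC X where
  U := c.U
  mem := c.mem
  g x y := (c.g x y)⁻¹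
  cocycle x y z W hx hy hz := by
    simp only [map_inv]
    rw [← mul_inv, c.cocycle x y z W hx hy hz]

/-- the trivial cocycle -/
def one (X : Scheme.{u}) : LC X where
  U _ := ⊤
  mem _ := trivial
  g _ _ := 1
  cocycle x y z W hx hy hz := by simp

/-- pull-back of cocycles -/
def pb (f : X ⟶ Y) (c : LC Y) : LC X where
  U x := f ⁻¹ᵁ (c.U (f x))
  mem x := c.mem (f x)
  g x y := upb f (U := c.U (f x) ⊓ c.U (f y)) le_rfl (c.g (f x) (f y))
  cocycle x y z W hx hy hz := by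
    have hW : W ≤ f ⁻¹ᵁ (c.U (f x) ⊓ c.U (f y) ⊓ c.U (f z)) := le_inf (le_inf hx hy) hz
    have e := congrArg (upb f hW) (c.cocycle (f x) (f y) (f z) _
      (inf_le_left.trans inf_le_left) (inf_le_left.trans inf_le_right) inf_le_right)
    rw [map_mul, upb_ures, upb_ures, upb_ures] at e
    exact (congrArg₂ (· * ·) (ures_upb f _ _ _) (ures_upb f _ _ _)).trans
      (e.trans (ures_upb f _ _ _).symm)

theorem pb_gr (f : X ⟶ Y) (c : LC Y) (x y : X) {W : X.Opens} (hx : W ≤ f ⁻¹ᵁ (c.U (f x)))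
    (hy : W ≤ f ⁻¹ᵁ (c.U (f y))) : (c.pb f).gr x y hx hy =
      upb f (U := c.U (f x) ⊓ c.U (f y)) (le_inf hx hy) (c.g (f x) (f y)) := ures_upb _ _ _ _

theorem one_gr (x y : X) {W : X.Opens} (hx : W ≤ (one X).U x) (hy : W ≤ (one X).U y) :
    (one X).gr x y hx hy = 1 := map_one _

theorem mul_gr (c c' : LC X) (x y : X) {W : X.Opens} (hx : W ≤ (c.mul c').U x)
    (hy : W ≤ (c.mul c').U y) : (c.mul c').gr x y hx hy =
      c.gr x y (hx.trans inf_le_left) (hy.trans inf_le_left) *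
        c'.gr x y (hx.trans inf_le_right) (hy.trans inf_le_right) := by
  show ures (U := c.U x ⊓ c'.U x ⊓ (c.U y ⊓ c'.U y)) (le_inf hx hy)
    (c.gr x y (inf_le_left.trans inf_le_left) (inf_le_right.trans inf_le_left) *
    c'.gr x y (inf_le_left.trans inf_le_right) (inf_le_right.trans inf_le_right)) = _
  rw [map_mul]
  exact congrArg₂ (· * ·) (ures_gr _ _ _ _ _ _) (ures_gr _ _ _ _ _ _)

theorem inv_gr (c : LC X) (x y : X) {W : X.Opens} (hx : W ≤ c.U x)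
    (hy : W ≤ c.U y) : c.inv.gr x y hx hy = (c.gr x y hx hy)⁻¹ := map_inv _ _

end LC

/-- the first Cech cohomology of the sheaf of units -/
def H1 (X : Scheme.{u}) : Type u := Quotient (LC.setoid X)

/-- the class of a cocycle -/
def H1.mk (c : LC X) : H1 X := Quotient.mk _ c

theorem H1.mk_eq_iff (c c' : LC X) : H1.mk c = H1.mk c' ↔ c.Rel c' := Quotient.eq

theorem H1.exists_mk (h : H1 X) : ∃ c, H1.mk c = h := Quotient.exists_rep h

end Fermat.Agent.JMod
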