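import Mathlib
import Fermat.Prelude.Def_AlgebraicGeometry_RelativePicardFunctor

/-!
# Sections of sheaves of modules and generators
-/

set_option autoImplicit false

noncomputable section

universe u

open CategoryTheory AlgebraicGeometry TopologicalSpace Opposite

namespace Fermat.Agent.JMod

variable {X : Scheme.{u}} {M N : X.Modules}

section Res

/-- restriction of sections of the structure sheaf -/
def ores {U V : X.Opens} (h : V ≤ U) : Γ(X, U) →+* Γ(X, V) :=
  (X.presheaf.map (homOfLE h).op).hom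

/-- restriction of sections of a module -/
def mres (M : X.Modules) {U V : X.Opens} (h : V ≤ U) : Γ(M, U) →+ Γ(M, V) :=
  (M.presheaf.map (homOfLE h).op).hom

theorem ores_ores {U V W : X.Opens} (h : V ≤ U) (h' : W ≤ V) (f : Γ(X, U)) :
    ores h' (ores h f) = ores (h'.trans h) f := by
  have := X.presheaf.map_comp (homOfLE h).op (homOfLE h').op
  exact (congrArg (fun φ : Γ(X, U) ⟶ Γ(X, W) => φ.hom f) this).symm

theorem ores_self {U : X.Opens} (h : U ≤ U) (f : Γ(X, U)) : ores h f = f := by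
  have := X.presheaf.map_id (op U)
  exact congrArg (fun φ : Γ(X, U) ⟶ Γ(X, U) => φ.hom f) this

theorem mres_mres {U V W : X.Opens} (h : V ≤ U) (h' : W ≤ V) (s : Γ(M, U)) :
    mres M h' (mres M h s) = mres M (h'.trans h) s := by
  have := M.presheaf.map_comp (homOfLE h).op (homOfLE h').op
  exact (congrArg (fun φ : Γ(M, U) ⟶ Γ(M, W) => φ.hom s) this).symm

theorem mres_self {U : X.Opens} (h : U ≤ U) (s : Γ(M, U)) : mres M h s = s := by
  have := M.presheaf.map_id (op U)
  exact congrArg (fun φ : Γ(M, U) ⟶ Γ(M, U) => φ.hom s) this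

theorem mres_smul {U V : X.Opens} (h : V ≤ U) (f : Γ(X, U)) (s : Γ(M, U)) :
    mres M h (f • s) = ores h f • mres M h s :=
  Scheme.Modules.map_smul M (homOfLE h) f s

/-- the action of a morphism on sections -/
def mapp (φ : M ⟶ N) (U : X.Opens) : Γ(M, U) →+ Γ(N, U) := (φ.app U).hom

theorem mapp_smul (φ : M ⟶ N) {U : X.Opens} (f : Γ(X, U)) (s : Γ(M, U)) :
    mapp φ U (f • s) = f • mapp φ U s :=
  Scheme.Modules.Hom.app_smul φ f s

theorem mapp_mres (φ : M ⟶ N) {U V : X.Opens} (h : V ≤ U) (s : Γ(M, U)) :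
    mapp φ V (mres M h s) = mres N h (mapp φ U s) := by
  have := φ.mapPresheaf.naturality (homOfLE h).op
  exact congrArg (fun ψ : Γ(M, U) ⟶ Γ(N, V) => ψ.hom s) this

theorem mapp_id {U : X.Opens} (s : Γ(M, U)) : mapp (𝟙 M) U s = s := rfl

theorem mapp_comp {K : X.Modules} (φ : M ⟶ N) (ψ : N ⟶ K) {U : X.Opens} (s : Γ(M, U)) :
    mapp (φ ≫ ψ) U s = mapp ψ U (mapp φ U s) := rfl

theorem hom_ext_mapp {φ ψ : M ⟶ N} (h : ∀ U s, mapp φ U s = mapp ψ U s) : φ = ψ := by
  apply Scheme.Modules.hom_ext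
  intro U
  ext s
  exact h U s

/-- constructor for morphisms of modules -/
def homMk (φ : ∀ U : X.Opens, Γ(M, U) →+ Γ(N, U))
    (hsmul : ∀ U (f : Γ(X, U)) (s : Γ(M, U)), φ U (f • s) = f • φ U s)
    (hres : ∀ {U V : X.Opens} (h : V ≤ U) (s : Γ(M, U)), φ V (mres M h s) = mres N h (φ U s)) :
    M ⟶ N :=
  (Scheme.Modules.fullyFaithfulToPresheafOfModules (X := X)).preimage
    (PresheafOfModules.homMk
      { app := fun U => AddCommGrpCat.ofHom (φ U.unop)
        naturality := fun U V f => by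
          ext s
          exact hres f.unop.le s }
      (fun U r m => hsmul U.unop r m))

theorem mapp_homMk (φ : ∀ U : X.Opens, Γ(M, U) →+ Γ(N, U))
    (hsmul : ∀ U (f : Γ(X, U)) (s : Γ(M, U)), φ U (f • s) = f • φ U s)
    (hres : ∀ {U V : X.Opens} (h : V ≤ U) (s : Γ(M, U)), φ V (mres M h s) = mres N h (φ U s))
    (U : X.Opens) (s : Γ(M, U)) : mapp (homMk φ hsmul hres) U s = φ U s := rfl

end Res

section Glue

variable {ι : Type u} {U : X.Opens} {V : ι → X.Opens}

theorem mext (hV : ∀ i, V i ≤ U) (hc : U ≤ iSup V) {s t : Γ(M, U)}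
    (h : ∀ i, mres M (hV i) s = mres M (hV i) t) : s = t :=
  TopCat.Sheaf.eq_of_locally_eq' (⟨M.presheaf, M.isSheaf⟩ : TopCat.Sheaf Ab X) V U
    (fun i => homOfLE (hV i)) hc s t h

theorem mglue (hV : ∀ i, V i ≤ U) (hc : U ≤ iSup V) (sf : ∀ i, Γ(M, V i))
    (h : ∀ i j, mres M (inf_le_left : V i ⊓ V j ≤ V i) (sf i) =
      mres M (inf_le_right : V i ⊓ V j ≤ V j) (sf j)) :
    ∃ s : Γ(M, U), ∀ i, mres M (hV i) s = sf i := by
  obtain ⟨s, hs, -⟩ := TopCat.Sheaf.existsUnique_gluing'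
    (⟨M.presheaf, M.isSheaf⟩ : TopCat.Sheaf Ab X) V U (fun i => homOfLE (hV i)) hc sf h
  exact ⟨s, hs⟩

theorem oext (hV : ∀ i, V i ≤ U) (hc : U ≤ iSup V) {s t : Γ(X, U)}
    (h : ∀ i, ores (hV i) s = ores (hV i) t) : s = t :=
  TopCat.Sheaf.eq_of_locally_eq' X.sheaf V U (fun i => homOfLE (hV i)) hc s t h

theorem oglue (hV : ∀ i, V i ≤ U) (hc : U ≤ iSup V) (sf : ∀ i, Γ(X, V i))
    (h : ∀ i j, ores (inf_le_left : V i ⊓ V j ≤ V i) (sf i) =
      ores (inf_le_right : V i ⊓ V j ≤ V j) (sf j)) :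
    ∃ s : Γ(X, U), ∀ i, ores (hV i) s = sf i := by
  obtain ⟨s, hs, -⟩ := TopCat.Sheaf.existsUnique_gluing' X.sheaf V U (fun i => homOfLE (hV i)) hc
    sf h
  exact ⟨s, hs⟩

end Glue

section Gen

/-- `s` is a generator of `M` over `U`. -/
def Gen (M : X.Modules) {U : X.Opens} (s : Γ(M, U)) : Prop :=
  ∀ (V : X.Opens) (h : V ≤ U), Function.Bijective (fun f : Γ(X, V) => f • mres M h s)

variable {U V : X.Opens} {s : Γ(M, U)}

theorem Gen.res (h : Gen M s) (hV : V ≤ U) : Gen M (mres M hV s) := by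
  intro W hW
  have := h W (hW.trans hV)
  rwa [← mres_mres hV hW] at this

theorem Gen.exists_coord (h : Gen M s) (t : Γ(M, U)) : ∃ f : Γ(X, U), f • s = t := by
  obtain ⟨f, hf⟩ := (h U le_rfl).2 t
  refine ⟨f, ?_⟩
  rwa [mres_self] at hf

theorem Gen.inj (h : Gen M s) {f g : Γ(X, U)} (hfg : f • s = g • s) : f = g :=
  (h U le_rfl).1 (by simpa only [mres_self] using hfg)

/-- coordinate of a section with respect to a generator -/
def Gen.coord (h : Gen M s) (t : Γ(M, U)) : Γ(X, U) := (h.exists_coord t).choose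

@[simp]
theorem Gen.coord_smul (h : Gen M s) (t : Γ(M, U)) : h.coord t • s = t :=
  (h.exists_coord t).choose_spec

theorem Gen.coord_eq (h : Gen M s) {t : Γ(M, U)} {f : Γ(X, U)} (hf : f • s = t) :
    h.coord t = f := h.inj (by rw [h.coord_smul, hf])

theorem Gen.coord_self (h : Gen M s) : h.coord s = 1 := h.coord_eq (one_smul _ _)

theorem Gen.coord_smul' (h : Gen M s) (f : Γ(X, U)) (t : Γ(M, U)) :
    h.coord (f • t) = f * h.coord t := h.coord_eq (by rw [mul_smul, h.coord_smul])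

theorem Gen.coord_add (h : Gen M s) (t t' : Γ(M, U)) :
    h.coord (t + t') = h.coord t + h.coord t' :=
  h.coord_eq (by rw [add_smul, h.coord_smul, h.coord_smul])

theorem Gen.coord_res (h : Gen M s) (hV : V ≤ U) (t : Γ(M, U)) :
    (h.res hV).coord (mres M hV t) = ores hV (h.coord t) :=
  (h.res hV).coord_eq (by rw [← mres_smul, h.coord_smul])

theorem Gen.isUnit_coord (h : Gen M s) {t : Γ(M, U)} (ht : Gen M t) : IsUnit (h.coord t) := by
  refine IsUnit.of_mul_eq_one (ht.coord s) (h.inj ?_)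
  rw [one_smul, mul_comm, mul_smul, h.coord_smul, ht.coord_smul]

theorem gen_smul_of_isUnit (h : Gen M s) {f : Γ(X, U)} (hf : IsUnit f) : Gen M (f • s) := by
  intro V hV
  obtain ⟨u, hu⟩ := hf.map (ores hV)
  have h1 := (h V hV).comp (Units.mulRight u).bijective
  have h2 : (fun a : Γ(X, V) => a • mres M hV (f • s)) =
      (fun a : Γ(X, V) => a • mres M hV s) ∘ (Units.mulRight u) := by
    funext a
    simp only [Function.comp_apply, Units.mulRight_apply]
    rw [mres_smul, hu, mul_smul]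
  rw [h2]
  exact h1

theorem gen_iff_isUnit_coord (h : Gen M s) (t : Γ(M, U)) : Gen M t ↔ IsUnit (h.coord t) := by
  refine ⟨fun ht => h.isUnit_coord ht, fun ht => ?_⟩
  rw [← h.coord_smul t]
  exact gen_smul_of_isUnit h ht

/-- Being a generator is local. -/
theorem gen_of_locally {ι : Type u} {W : ι → X.Opens} (hW : ∀ i, W i ≤ U) (hc : U ≤ iSup W)
    (h : ∀ i, Gen M (mres M (hW i) s)) : Gen M s := by
  intro V hV
  have hc' : V ≤ iSup fun i => V ⊓ W i := by
    rw [← inf_iSup_eq]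
    exact le_inf le_rfl (hV.trans hc)
  have hg : ∀ i, Gen M (mres M (inf_le_left.trans hV : V ⊓ W i ≤ U) s) := by
    intro i
    have := (h i).res (inf_le_right : V ⊓ W i ≤ W i)
    rwa [mres_mres] at this
  have hle : ∀ i, V ⊓ W i ≤ V := fun i => inf_le_left
  refine ⟨fun f g hfg => ?_, fun t => ?_⟩
  · refine oext hle hc' fun i => (hg i).inj ?_
    have := congrArg (mres M (hle i)) hfg
    simpa only [mres_smul, mres_mres] using this
  · obtain ⟨f, hf⟩ := oglue hle hc' (fun i => (hg i).coord (mres M (hle i) t)) fun i j => by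
      have hij : (V ⊓ W i) ⊓ (V ⊓ W j) ≤ U := inf_le_left.trans (inf_le_left.trans hV)
      have hgij : Gen M (mres M hij s) := by
        have := (hg i).res (inf_le_left : (V ⊓ W i) ⊓ (V ⊓ W j) ≤ V ⊓ W i)
        rwa [mres_mres] at this
      refine hgij.inj ?_
      have h1 := congrArg (mres M (inf_le_left : (V ⊓ W i) ⊓ (V ⊓ W j) ≤ V ⊓ W i))
        ((hg i).coord_smul (mres M (hle i) t))
      have h2 := congrArg (mres M (inf_le_right : (V ⊓ W i) ⊓ (V ⊓ W j) ≤ V ⊓ W j))
        ((hg j).coord_smul (mres M (hle j) t))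
      rw [mres_smul, mres_mres, mres_mres] at h1 h2
      rw [h1, h2]
    refine ⟨f, mext hle hc' fun i => ?_⟩
    rw [mres_smul, hf, mres_mres, (hg i).coord_smul]

theorem mapp_bijective (e : M ≅ N) (U : X.Opens) : Function.Bijective (mapp e.hom U) := by
  refine ⟨fun a b hab => ?_, fun b => ⟨mapp e.inv U b, ?_⟩⟩
  · have := congrArg (mapp e.inv U) hab
    rwa [← mapp_comp, ← mapp_comp, e.hom_inv_id, mapp_id, mapp_id] at this
  · rw [← mapp_comp, e.inv_hom_id, mapp_id]

theorem Gen.map (h : Gen M s) (e : M ≅ N) : Gen N (mapp e.hom U s) := by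
  intro V hV
  have h1 := (mapp_bijective e V).comp (h V hV)
  have h2 : (fun f : Γ(X, V) => f • mres N hV (mapp e.hom U s)) =
      (mapp e.hom V) ∘ (fun f : Γ(X, V) => f • mres M hV s) := by
    funext f
    simp only [Function.comp_apply]
    rw [mapp_smul, mapp_mres]
  rw [h2]
  exact h1

/-- A morphism is an isomorphism if it sends local generators to generators. -/
theorem isIso_of_gen {ι : Type u} {W : ι → X.Opens} (hc : (⊤ : X.Opens) ≤ iSup W) (φ : M ⟶ N)
    (e : ∀ i, Γ(M, W i)) (he : ∀ i, Gen M (e i)) (he' : ∀ i, Gen N (mapp φ (W i) (e i))) :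
    IsIso φ := by
  rw [Scheme.Modules.Hom.isIso_iff_isIso_app]
  intro U
  have hloc : ∀ (i : ι) (V : X.Opens) (hV : V ≤ W i), Function.Bijective (mapp φ V) := by
    intro i V hV
    have h1 := he i V hV
    have h2 := he' i V hV
    have h3 : (fun f : Γ(X, V) => f • mres N hV (mapp φ (W i) (e i))) =
        (mapp φ V) ∘ (fun f : Γ(X, V) => f • mres M hV (e i)) := by
      funext f
      simp only [Function.comp_apply]
      rw [mapp_smul, mapp_mres]
    rw [h3] at h2
    exact (Function.Bijective.of_comp_iff _ h1).mp h2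
  have hle : ∀ i, U ⊓ W i ≤ U := fun i => inf_le_left
  have hc' : U ≤ iSup fun i => U ⊓ W i := by
    rw [← inf_iSup_eq]
    exact le_inf le_rfl (le_top.trans hc)
  have hbij : Function.Bijective (mapp φ U) := by
    refine ⟨fun a b hab => mext hle hc' fun i => ?_, fun t => ?_⟩
    · refine (hloc i _ inf_le_right).1 ?_
      rw [mapp_mres, mapp_mres, hab]
    · choose a ha using fun i => (hloc i (U ⊓ W i) inf_le_right).2 (mres N (hle i) t)
      obtain ⟨s, hs⟩ := mglue hle hc' a fun i j => by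
        refine (hloc i _ (inf_le_left.trans inf_le_right)).1 ?_
        rw [mapp_mres, mapp_mres, ha, ha, mres_mres, mres_mres]
      refine ⟨s, mext hle hc' fun i => ?_⟩
      rw [← mapp_mres, hs, ha]
  exact (ConcreteCategory.isIso_iff_bijective (φ.app U)).mpr hbij

end Gen

end Fermat.Agent.JMod
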