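import Fermat.Agent.JMod.H1Group

/-!
# Cocycles of units on arbitrary open covers
-/

set_option autoImplicit false

noncomputable section

universe u v w

open CategoryTheory AlgebraicGeometry TopologicalSpace Opposite

namespace Fermat.Agent.JMod

variable {X Y Z : Scheme.{u}}

section glue

variable {ι : Type u} {U : X.Opens} {V : ι → X.Opens}

theorem uext (hV : ∀ i, V i ≤ U) (hc : U ≤ iSup V) {s t : Γ(X, U)ˣ}
    (h : ∀ i, ures (hV i) s = ures (hV i) t) : s = t :=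
  Units.ext (oext hV hc fun i => congrArg Units.val (h i))

theorem uglue (hV : ∀ i, V i ≤ U) (hc : U ≤ iSup V) (sf : ∀ i, Γ(X, V i)ˣ)
    (h : ∀ i j, ures (inf_le_left : V i ⊓ V j ≤ V i) (sf i) =
      ures (inf_le_right : V i ⊓ V j ≤ V j) (sf j)) :
    ∃ s : Γ(X, U)ˣ, ∀ i, ures (hV i) s = sf i := by
  obtain ⟨s, hs⟩ := oglue hV hc (fun i => (sf i : Γ(X, V i)))
    fun i j => congrArg Units.val (h i j)
  obtain ⟨t, ht⟩ := oglue hV hc (fun i => ((sf i)⁻¹ : Γ(X, V i)ˣ))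
    fun i j => by
      have := congrArg (·⁻¹) (h i j)
      simp only [← map_inv] at this
      exact congrArg Units.val this
  have h1 : s * t = 1 := oext hV hc fun i => by
    rw [map_mul, hs, ht, map_one, Units.mul_inv]
  exact ⟨⟨s, t, h1, by rw [mul_comm, h1]⟩, fun i => Units.ext (hs i)⟩

end glue

/-- cocycles of units on a cover indexed by `ι` -/
structure Coc (X : Scheme.{u}) (ι : Type v) where
  /-- the cover -/
  U : ι → X.Opens
  cov : ∀ x : X, ∃ i, x ∈ U i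
  /-- transition functions: `s j = g i j • s i` -/
  g : ∀ i j, Γ(X, U i ⊓ U j)ˣ
  cocycle : ∀ (i j k : ι) (W : X.Opens) (hi : W ≤ U i) (hj : W ≤ U j) (hk : W ≤ U k),
    ures (le_inf hi hj) (g i j) * ures (le_inf hj hk) (g j k) = ures (le_inf hi hk) (g i k)

namespace Coc

variable {ι : Type v} {κ : Type w} (a : Coc X ι) (b : Coc X κ)

/-- restriction of the transition functions -/
def gr (i j : ι) {W : X.Opens} (hi : W ≤ a.U i) (hj : W ≤ a.U j) : Γ(X, W)ˣ :=
  ures (le_inf hi hj) (a.g i j)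

theorem gr_mul (i j k : ι) {W : X.Opens} (hi : W ≤ a.U i) (hj : W ≤ a.U j) (hk : W ≤ a.U k) :
    a.gr i j hi hj * a.gr j k hj hk = a.gr i k hi hk := a.cocycle i j k W hi hj hk

@[simp]
theorem gr_self (i : ι) {W : X.Opens} (hi hi' : W ≤ a.U i) : a.gr i i hi hi' = 1 := by
  have := a.gr_mul i i i hi hi hi
  exact mul_eq_left.mp this

theorem ures_gr (i j : ι) {W W' : X.Opens} (hi : W ≤ a.U i) (hj : W ≤ a.U j) (h : W' ≤ W) :
    ures h (a.gr i j hi hj) = a.gr i j (h.trans hi) (h.trans hj) := ures_ures _ _ _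

theorem gr_inv (i j : ι) {W : X.Opens} (hi : W ≤ a.U i) (hj : W ≤ a.U j) :
    (a.gr i j hi hj)⁻¹ = a.gr j i hj hi := by
  rw [inv_eq_iff_mul_eq_one, gr_mul, gr_self]

/-- isomorphisms of cocycles on different covers: `t j = φ i j • s i` -/
structure Eqv (a : Coc X ι) (b : Coc X κ) where
  /-- the coordinates -/
  φ : ∀ i j, Γ(X, a.U i ⊓ b.U j)ˣ
  left : ∀ (i i' : ι) (j : κ) (W : X.Opens) (hi : W ≤ a.U i) (hi' : W ≤ a.U i') (hj : W ≤ b.U j),
    a.gr i' i hi' hi * ures (le_inf hi hj) (φ i j) = ures (le_inf hi' hj) (φ i' j)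
  right : ∀ (i : ι) (j j' : κ) (W : X.Opens) (hi : W ≤ a.U i) (hj : W ≤ b.U j) (hj' : W ≤ b.U j'),
    ures (le_inf hi hj) (φ i j) * b.gr j j' hj hj' = ures (le_inf hi hj') (φ i j')

/-- The cocycle indexed by points. -/
def toLC : LC X where
  U x := a.U (a.cov x).choose
  mem x := (a.cov x).choose_spec
  g x y := a.g (a.cov x).choose (a.cov y).choose
  cocycle _ _ _ W hx hy hz := a.cocycle _ _ _ W hx hy hz

theorem toLC_gr (x y : X) {W : X.Opens} (hx : W ≤ a.toLC.U x) (hy : W ≤ a.toLC.U y) :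
    a.toLC.gr x y hx hy = a.gr (a.cov x).choose (a.cov y).choose hx hy := rfl

/-- the cohomology class -/
def cls : H1 X := H1.mk a.toLC

variable {a b} in
theorem Eqv.rel (e : Eqv a b) : a.toLC.Rel b.toLC := by
  refine ⟨fun x => a.U (a.cov x).choose ⊓ b.U (b.cov x).choose,
    fun x => ⟨(a.cov x).choose_spec, (b.cov x).choose_spec⟩, fun x => inf_le_left,
    fun x => inf_le_right, fun x => e.φ _ _, fun x y W hx hy => ?_⟩
  rw [toLC_gr, toLC_gr]
  have h1 := e.left (a.cov y).choose (a.cov x).choose (b.cov y).choose W (hy.trans inf_le_left)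
    (hx.trans inf_le_left) (hy.trans inf_le_right)
  have h2 := e.right (a.cov x).choose (b.cov x).choose (b.cov y).choose W (hx.trans inf_le_left)
    (hx.trans inf_le_right) (hy.trans inf_le_right)
  exact h1.trans h2.symm

variable {a b} in
theorem Eqv.exists_of_rel (h : a.toLC.Rel b.toLC) : Nonempty (Eqv a b) := by
  obtain ⟨V, hV, h1, h2, h, hh⟩ := h
  -- local formula
  let p : ∀ z : X, ι := fun z => (a.cov z).choose
  let q : ∀ z : X, κ := fun z => (b.cov z).choose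
  have hp : ∀ z, V z ≤ a.U (p z) := h1
  have hq : ∀ z, V z ≤ b.U (q z) := h2
  let loc : ∀ (i : ι) (j : κ) (z : X) (W : X.Opens) (_ : W ≤ a.U i) (_ : W ≤ b.U j)
    (_ : W ≤ V z), Γ(X, W)ˣ := fun i j z W hi hj hz =>
    a.gr i (p z) hi (hz.trans (hp z)) * ures hz (h z) * b.gr (q z) j (hz.trans (hq z)) hj
  have hloc : ∀ (i : ι) (j : κ) (z z' : X) (W : X.Opens) (hi : W ≤ a.U i) (hj : W ≤ b.U j)
      (hz : W ≤ V z) (hz' : W ≤ V z'), loc i j z W hi hj hz = loc i j z' W hi hj hz' := by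
    intro i j z z' W hi hj hz hz'
    have e := hh z z' W hz hz'
    rw [toLC_gr, toLC_gr] at e
    have e' : a.gr (p z) (p z') (hz.trans (hp z)) (hz'.trans (hp z')) * ures hz' (h z') =
      ures hz (h z) * b.gr (q z) (q z') (hz.trans (hq z)) (hz'.trans (hq z')) := e
    show a.gr i (p z) hi (hz.trans (hp z)) * ures hz (h z) * b.gr (q z) j (hz.trans (hq z)) hj =
      a.gr i (p z') hi (hz'.trans (hp z')) * ures hz' (h z') *
        b.gr (q z') j (hz'.trans (hq z')) hj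
    rw [← b.gr_mul (q z) (q z') j (hz.trans (hq z)) (hz'.trans (hq z')) hj,
      ← a.gr_mul i (p z) (p z') hi (hz.trans (hp z)) (hz'.trans (hp z')), ← mul_assoc,
      mul_assoc (a.gr i (p z) _ _) (ures hz (h z)), ← e']
    simp only [mul_assoc]
  have hlocres : ∀ (i : ι) (j : κ) (z : X) (W W' : X.Opens) (hi : W ≤ a.U i) (hj : W ≤ b.U j)
      (hz : W ≤ V z) (hW : W' ≤ W), ures hW (loc i j z W hi hj hz) =
        loc i j z W' (hW.trans hi) (hW.trans hj) (hW.trans hz) := by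
    intro i j z W W' hi hj hz hW
    show ures hW (a.gr i (p z) hi (hz.trans (hp z)) * ures hz (h z) *
      b.gr (q z) j (hz.trans (hq z)) hj) = _
    rw [map_mul, map_mul, ures_gr, ures_gr, ures_ures]
  -- glue
  have hle : ∀ (i : ι) (j : κ) (z : X), a.U i ⊓ b.U j ⊓ V z ≤ a.U i ⊓ b.U j :=
    fun i j z => inf_le_left
  have hcov : ∀ (W : X.Opens), W ≤ ⨆ z : X, W ⊓ V z := by
    intro W x hx
    exact Opens.mem_iSup.mpr ⟨x, hx, hV x⟩
  have hex : ∀ (i : ι) (j : κ), ∃ s : Γ(X, a.U i ⊓ b.U j)ˣ, ∀ z, ures (hle i j z) s =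
      loc i j z _ (inf_le_left.trans inf_le_left) (inf_le_left.trans inf_le_right)
        inf_le_right := by
    intro i j
    refine uglue (hle i j) (hcov _) _ fun z z' => ?_
    rw [hlocres, hlocres]
    exact hloc _ _ _ _ _ _ _ _ _
  choose φ hφ using hex
  have hφ' : ∀ (i : ι) (j : κ) (z : X) (W : X.Opens) (hi : W ≤ a.U i) (hj : W ≤ b.U j)
      (hz : W ≤ V z), ures (le_inf hi hj) (φ i j) = loc i j z W hi hj hz := by
    intro i j z W hi hj hz
    have := congrArg (ures (le_inf (le_inf hi hj) hz)) (hφ i j z)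
    rw [ures_ures, hlocres] at this
    exact this
  refine ⟨⟨φ, ?_, ?_⟩⟩
  · intro i i' j W hi hi' hj
    refine uext (V := fun z => W ⊓ V z) (fun z => inf_le_left) (hcov W) fun z => ?_
    rw [map_mul, ures_gr, ures_ures, ures_ures,
      hφ' i j z _ (inf_le_left.trans hi) (inf_le_left.trans hj) inf_le_right,
      hφ' i' j z _ (inf_le_left.trans hi') (inf_le_left.trans hj) inf_le_right]
    show _ * (_ * _ * _) = _ * _ * _
    rw [← mul_assoc, ← mul_assoc, gr_mul]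
  · intro i j j' W hi hj hj'
    refine uext (V := fun z => W ⊓ V z) (fun z => inf_le_left) (hcov W) fun z => ?_
    rw [map_mul, ures_gr, ures_ures, ures_ures,
      hφ' i j z _ (inf_le_left.trans hi) (inf_le_left.trans hj) inf_le_right,
      hφ' i j' z _ (inf_le_left.trans hi) (inf_le_left.trans hj') inf_le_right]
    show _ * _ * _ * _ = _ * _ * _
    rw [mul_assoc, gr_mul]

/-- **Criterion for the equality of classes** -/
theorem cls_eq_iff : a.cls = b.cls ↔ Nonempty (Eqv a b) := by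
  rw [cls, cls, H1.mk_eq_iff]
  exact ⟨Eqv.exists_of_rel, fun ⟨e⟩ => e.rel⟩

theorem cls_eq_of_eqv {a : Coc X ι} {b : Coc X κ} (e : Eqv a b) : a.cls = b.cls :=
  (cls_eq_iff a b).mpr ⟨e⟩

/-- refinements -/
theorem cls_eq_of_refine (r : κ → ι) (hr : ∀ j, b.U j ≤ a.U (r j))
    (hg : ∀ (j j' : κ) (W : X.Opens) (hj : W ≤ b.U j) (hj' : W ≤ b.U j'),
      b.gr j j' hj hj' = a.gr (r j) (r j') (hj.trans (hr j)) (hj'.trans (hr j'))) :
    a.cls = b.cls :=
  cls_eq_of_eqv
    { φ := fun i j => a.gr i (r j) inf_le_left (inf_le_right.trans (hr j))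
      left := fun i i' j W hi hi' hj => by rw [ures_gr, ures_gr, gr_mul]
      right := fun i j j' W hi hj hj' => by rw [ures_gr, ures_gr, hg, gr_mul] }

end Coc

/-- cocycles indexed by points as cocycles on a cover -/
def LC.toCoc (c : LC X) : Coc X X where
  U := c.U
  cov x := ⟨x, c.mem x⟩
  g := c.g
  cocycle := c.cocycle

theorem Coc.mk_eq_cls {ι : Type v} (a : Coc X ι) (c : LC X) (r : X → ι)
    (hU : ∀ x, c.U x ≤ a.U (r x))
    (hg : ∀ (x y : X) (W : X.Opens) (hx : W ≤ c.U x) (hy : W ≤ c.U y),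
      c.gr x y hx hy = a.gr (r x) (r y) (hx.trans (hU x)) (hy.trans (hU y))) :
    H1.mk c = a.cls := by
  rw [Coc.cls, H1.mk_eq_iff]
  refine ⟨fun x => c.U x ⊓ a.U (a.cov x).choose, fun x => ⟨c.mem x, (a.cov x).choose_spec⟩,
    fun x => inf_le_left, fun x => inf_le_right,
    fun x => a.gr (r x) (a.cov x).choose (inf_le_left.trans (hU x)) inf_le_right,
    fun x y W hx hy => ?_⟩
  rw [Coc.toLC_gr, Coc.ures_gr, Coc.ures_gr, Coc.gr_mul, hg, Coc.gr_mul]

theorem LC.cls_toCoc (c : LC X) : c.toCoc.cls = H1.mk c :=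
  (Coc.mk_eq_cls c.toCoc c id (fun _ => le_rfl) fun _ _ _ _ _ => rfl).symm

theorem H1.exists_cls (h : H1 X) : ∃ c : LC X, c.toCoc.cls = h := by
  obtain ⟨c, rfl⟩ := H1.exists_mk h
  exact ⟨c, c.cls_toCoc⟩

namespace Coc

variable {ι : Type v} {κ : Type w}

/-- the trivial cocycle -/
def triv (X : Scheme.{u}) : Coc X PUnit.{1} where
  U _ := ⊤
  cov _ := ⟨⟨⟩, trivial⟩
  g _ _ := 1
  cocycle i j k W hi hj hk := by simp

theorem cls_triv : (triv X).cls = 1 := by
  rw [cls, ← H1.mk_one, H1.mk_eq_iff]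
  exact LC.Rel.of_gr (fun _ => ⊤) (fun _ => trivial) (fun _ => le_rfl) (fun _ => le_rfl)
    fun x y W hx hy => by
      rw [toLC_gr, LC.one_gr]
      exact map_one _

/-- **Criterion of triviality** -/
theorem cls_eq_one_iff (a : Coc X ι) : a.cls = 1 ↔ ∃ h : ∀ i, Γ(X, a.U i)ˣ,
    ∀ (i j : ι) (W : X.Opens) (hi : W ≤ a.U i) (hj : W ≤ a.U j),
      a.gr i j hi hj * ures hj (h j) = ures hi (h i) := by
  rw [← cls_triv, cls_eq_iff]
  constructor
  · rintro ⟨e⟩
    refine ⟨fun i => ures (U := a.U i ⊓ (triv X).U ⟨⟩) (le_inf le_rfl le_top) (e.φ i ⟨⟩),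
      fun i j W hi hj => ?_⟩
    rw [ures_ures, ures_ures]
    exact e.left j i ⟨⟩ W hj hi le_top
  · rintro ⟨h, hh⟩
    refine ⟨⟨fun i j => ures inf_le_left (h i), fun i i' j W hi hi' hj => ?_,
      fun i j j' W hi hj hj' => ?_⟩⟩
    · rw [ures_ures, ures_ures]
      exact hh i' i W hi' hi
    · have : (triv X).gr j j' hj hj' = 1 := map_one _
      rw [this, mul_one]

/-- pull-back -/
def pb (f : X ⟶ Y) (a : Coc Y ι) : Coc X ι where
  U i := f ⁻¹ᵁ (a.U i)
  cov x := a.cov (f x)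
  g i j := upb f (U := a.U i ⊓ a.U j) le_rfl (a.g i j)
  cocycle i j k W hi hj hk := by
    have hW : W ≤ f ⁻¹ᵁ (a.U i ⊓ a.U j ⊓ a.U k) := le_inf (le_inf hi hj) hk
    have e := congrArg (upb f hW) (a.cocycle i j k _
      (inf_le_left.trans inf_le_left) (inf_le_left.trans inf_le_right) inf_le_right)
    rw [map_mul, upb_ures, upb_ures, upb_ures] at e
    exact (congrArg₂ (· * ·) (ures_upb f _ _ _) (ures_upb f _ _ _)).trans
      (e.trans (ures_upb f _ _ _).symm)

theorem pb_gr (f : X ⟶ Y) (a : Coc Y ι) (i j : ι) {W : X.Opens} (hi : W ≤ f ⁻¹ᵁ (a.U i))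
    (hj : W ≤ f ⁻¹ᵁ (a.U j)) : (a.pb f).gr i j hi hj =
      upb f (U := a.U i ⊓ a.U j) (le_inf hi hj) (a.g i j) := ures_upb _ _ _ _

theorem cls_pb (f : X ⟶ Y) (a : Coc Y ι) : (a.pb f).cls = H1.map f a.cls := by
  rw [cls, cls, H1.map_mk, H1.mk_eq_iff]
  refine ⟨fun x => (a.pb f).toLC.U x ⊓ (a.toLC.pb f).U x,
    fun x => ⟨(a.pb f).toLC.mem x, (a.toLC.pb f).mem x⟩,
    fun x => inf_le_left, fun x => inf_le_right,
    fun x => (a.pb f).gr ((a.pb f).cov x).choose (a.cov (f x)).choose inf_le_left inf_le_right,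
    fun x y W hx hy => ?_⟩
  have e : (a.toLC.pb f).gr x y (hx.trans inf_le_right) (hy.trans inf_le_right) =
      (a.pb f).gr (a.cov (f x)).choose (a.cov (f y)).choose (hx.trans inf_le_right)
        (hy.trans inf_le_right) := by
    rw [LC.pb_gr, pb_gr]
    rfl
  rw [toLC_gr, e, ures_gr, ures_gr, gr_mul, gr_mul]

/-- products -/
def mul (a : Coc X ι) (b : Coc X κ) : Coc X (ι × κ) where
  U p := a.U p.1 ⊓ b.U p.2
  cov x := by
    obtain ⟨i, hi⟩ := a.cov x
    obtain ⟨j, hj⟩ := b.cov x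
    exact ⟨(i, j), hi, hj⟩
  g p q := a.gr p.1 q.1 (inf_le_left.trans inf_le_left) (inf_le_right.trans inf_le_left) *
    b.gr p.2 q.2 (inf_le_left.trans inf_le_right) (inf_le_right.trans inf_le_right)
  cocycle x y z W hx hy hz := by
    simp only [map_mul, ures_gr]
    rw [mul_mul_mul_comm, gr_mul, gr_mul]

theorem mul_gr (a : Coc X ι) (b : Coc X κ) (p q : ι × κ) {W : X.Opens}
    (hp : W ≤ (a.mul b).U p) (hq : W ≤ (a.mul b).U q) : (a.mul b).gr p q hp hq =
      a.gr p.1 q.1 (hp.trans inf_le_left) (hq.trans inf_le_left) *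
        b.gr p.2 q.2 (hp.trans inf_le_right) (hq.trans inf_le_right) := by
  show ures (U := a.U p.1 ⊓ b.U p.2 ⊓ (a.U q.1 ⊓ b.U q.2)) (le_inf hp hq)
    (a.gr p.1 q.1 (inf_le_left.trans inf_le_left) (inf_le_right.trans inf_le_left) *
    b.gr p.2 q.2 (inf_le_left.trans inf_le_right) (inf_le_right.trans inf_le_right)) = _
  rw [map_mul]
  exact congrArg₂ (· * ·) (ures_gr _ _ _ _ _ _) (ures_gr _ _ _ _ _ _)

/-- equality with a product, on a common cover -/
theorem cls_eq_mul (a : Coc X ι) (b : Coc X κ) {μ : Type*} (c : Coc X μ) (r : μ → ι) (s : μ → κ)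
    (hr : ∀ j, c.U j ≤ a.U (r j)) (hs : ∀ j, c.U j ≤ b.U (s j))
    (hg : ∀ (j j' : μ) (W : X.Opens) (hj : W ≤ c.U j) (hj' : W ≤ c.U j'),
      c.gr j j' hj hj' = a.gr (r j) (r j') (hj.trans (hr j)) (hj'.trans (hr j')) *
        b.gr (s j) (s j') (hj.trans (hs j)) (hj'.trans (hs j'))) :
    c.cls = a.cls * b.cls := by
  rw [cls, cls, cls, ← H1.mk_mul, H1.mk_eq_iff]
  let p : ∀ z : X, μ := fun z => (c.cov z).choose
  refine LC.Rel.symm ⟨fun x => a.U (a.cov x).choose ⊓ b.U (b.cov x).choose ⊓ c.U (p x),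
    fun x => ⟨⟨(a.cov x).choose_spec, (b.cov x).choose_spec⟩, (c.cov x).choose_spec⟩,
    fun x => inf_le_left, fun x => inf_le_right, fun x =>
    a.gr (a.cov x).choose (r (p x)) (inf_le_left.trans inf_le_left)
      (inf_le_right.trans (hr (p x))) *
    b.gr (b.cov x).choose (s (p x)) (inf_le_left.trans inf_le_right)
      (inf_le_right.trans (hs (p x))), fun x y W hx hy => ?_⟩
  have e := hg (p x) (p y) W (hx.trans inf_le_right) (hy.trans inf_le_right)
  rw [LC.mul_gr, toLC_gr, toLC_gr, toLC_gr]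
  beta_reduce
  rw [map_mul, map_mul, ures_gr, ures_gr, ures_gr, ures_gr]
  refine Eq.trans ?_ (congrArg (_ * ·) e.symm)
  rw [mul_mul_mul_comm, gr_mul, gr_mul, mul_mul_mul_comm, gr_mul, gr_mul]

theorem cls_mul (a : Coc X ι) (b : Coc X κ) : (a.mul b).cls = a.cls * b.cls :=
  cls_eq_mul a b (a.mul b) Prod.fst Prod.snd (fun _ => inf_le_left) (fun _ => inf_le_right)
    fun j j' _ hj hj' => mul_gr a b j j' hj hj'

/-- inverse -/
def inv (a : Coc X ι) : Coc X ι where
  U := a.U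
  cov := a.cov
  g x y := (a.g x y)⁻¹
  cocycle x y z W hx hy hz := by
    simp only [map_inv]
    rw [← mul_inv, a.cocycle x y z W hx hy hz]

theorem inv_gr (a : Coc X ι) (i j : ι) {W : X.Opens} (hi : W ≤ a.U i) (hj : W ≤ a.U j) :
    a.inv.gr i j hi hj = (a.gr i j hi hj)⁻¹ := map_inv _ _

theorem cls_inv (a : Coc X ι) : a.inv.cls = a.cls⁻¹ := rfl

end Coc

end Fermat.Agent.JMod
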